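import Fermat.Agent.S14.SUnits
import Fermat.Agent.S14.Approx

set_option autoImplicit false
set_option linter.unusedSectionVars false

/-!
# CFT / Global / H1 : the group `B_S(K)` and the `S`-class group modulo `p`  (S14 language)

`K` any number field, `s : Finset (Pl K)`.
* `DivP p s`  : divisors outside `s` with coefficients in `ZMod p`;
* `divP p s : ModP p K →ₗ[ZMod p] DivP p s`, `cls x ↦ (ord_v x mod p)_v`;
* `BS p s  := ker (divP p s)`   (`= {x : p ∣ ord_v x ∀ v ∉ s} / p`-th powers);
* `ClP p s := coker (divP p s)` (`= Cl_S(K)/p`), `clRank p s` its dimension;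
* `finrank_BS` : `dim B_S = rank 𝓞ˣ + 1 + #s + clRank` (`ζ_p ∈ K`), with finiteness;
* `two_mul_rank_add_one` : `2 (rank 𝓞ˣ + 1) = [K:ℚ]` (`ζ_p ∈ K`, `p > 2`).
No class group of Mathlib is used: everything is computed on a finite set `T ⊇ s` with `GenCl T`.
-/

namespace Fermat.Agent.CFT.Global

open Fermat.Agent.S14 IsDedekindDomain NumberField Module

section LinAlg

variable {k V W : Type*} [Field k] [AddCommGroup V] [Module k V] [AddCommGroup W] [Module k W]

/-- index of a linear map computed on finite-dimensional "cores". -/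
theorem finrank_ker_eq_of_core (f : V →ₗ[k] W) (V' : Submodule k V) (W' : Submodule k W)
    [FiniteDimensional k V'] [FiniteDimensional k W']
    (h1 : ∀ x, f x ∈ W' ↔ x ∈ V') (h2 : W' ⊔ LinearMap.range f = ⊤) :
    FiniteDimensional k (LinearMap.ker f) ∧ FiniteDimensional k (W ⧸ LinearMap.range f) ∧
      finrank k (LinearMap.ker f) + finrank k W' =
        finrank k V' + finrank k (W ⧸ LinearMap.range f) := by
  have hk : LinearMap.ker f ≤ V' := fun x hx =>
    (h1 x).1 (by rw [LinearMap.mem_ker.1 hx]; exact W'.zero_mem)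
  have fin1 : FiniteDimensional k (LinearMap.ker f) := Submodule.finiteDimensional_of_le hk
  let g : W' →ₗ[k] W ⧸ LinearMap.range f := (LinearMap.range f).mkQ ∘ₗ W'.subtype
  have hg : Function.Surjective g := by
    intro y
    obtain ⟨w, rfl⟩ := Submodule.mkQ_surjective _ y
    have : w ∈ W' ⊔ LinearMap.range f := h2 ▸ Submodule.mem_top
    obtain ⟨a, ha, b, hb, rfl⟩ := Submodule.mem_sup.1 this
    refine ⟨⟨a, ha⟩, ?_⟩
    simp [g, (Submodule.Quotient.mk_eq_zero _).2 hb]
  have fin2 : FiniteDimensional k (W ⧸ LinearMap.range f) := Module.Finite.of_surjective g hg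
  let f' : V' →ₗ[k] W' := f.restrict (fun x hx => (h1 x).2 hx)
  have e1 : finrank k (LinearMap.ker f') = finrank k (LinearMap.ker f) := by
    have : LinearMap.ker f' = (LinearMap.ker f).comap V'.subtype := by
      rw [LinearMap.ker_restrict]
    rw [this]
    exact (Submodule.comapSubtypeEquivOfLe hk).finrank_eq
  have e2 : LinearMap.range f' = LinearMap.ker g := by
    ext w
    constructor
    · rintro ⟨x, rfl⟩
      rw [LinearMap.mem_ker]
      simp only [g, f', LinearMap.comp_apply, Submodule.subtype_apply, LinearMap.coe_restrict_apply,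
        Submodule.mkQ_apply, Submodule.Quotient.mk_eq_zero]
      exact ⟨x, rfl⟩
    · intro hw
      rw [LinearMap.mem_ker] at hw
      simp only [g, LinearMap.comp_apply, Submodule.subtype_apply,
        Submodule.mkQ_apply, Submodule.Quotient.mk_eq_zero] at hw
      obtain ⟨x, hx⟩ := hw
      have hxV : x ∈ V' := (h1 x).1 (hx ▸ w.2)
      exact ⟨⟨x, hxV⟩, Subtype.ext hx⟩
  have r1 := LinearMap.finrank_range_add_finrank_ker f'
  have r2 := LinearMap.finrank_range_add_finrank_ker g
  rw [LinearMap.range_eq_top.2 hg, finrank_top] at r2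
  rw [e2, e1] at r1
  refine ⟨fin1, fin2, ?_⟩
  omega

end LinAlg

section BS

variable {K : Type*} [Field K] [NumberField K] (p : ℕ) [Fact p.Prime] (s : Finset (Pl K))

/-- divisors outside `s` with coefficients in `ZMod p` -/
abbrev DivP : Type _ := {v : Pl K // v ∉ s} →₀ ZMod p

/-- the divisor (outside `s`, mod `p`) of a unit -/
noncomputable def divU (x : Kˣ) : DivP p s :=
  Finsupp.ofSupportFinite (fun v => ((ord v.1 (x : K) : ℤ) : ZMod p)) (by
    have := finite_support_ord (x := (x : K)) x.ne_zero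
    refine (this.preimage (Subtype.val_injective.injOn)).subset ?_
    intro v hv
    simp only [Function.mem_support, ne_eq, Set.mem_preimage] at hv ⊢
    intro h
    apply hv
    rw [h]
    simp)

lemma divU_apply (x : Kˣ) (v : {v : Pl K // v ∉ s}) :
    divU p s x v = ((ord v.1 (x : K) : ℤ) : ZMod p) := rfl

/-- `divU` as a homomorphism -/
noncomputable def divHom : Kˣ →* Multiplicative (DivP p s) where
  toFun x := Multiplicative.ofAdd (divU p s x)
  map_one' := by
    rw [← ofAdd_zero]
    congr 1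
    ext v
    simp [divU_apply, ord_one]
  map_mul' x y := by
    rw [← ofAdd_add]
    congr 1
    ext v
    simp [divU_apply, ord_mul v.1 x.ne_zero y.ne_zero]

/-- the divisor map `K^×/p → Div_S / p` -/
noncomputable def divP : ModP p K →ₗ[ZMod p] DivP p s :=
  AddMonoidHom.toZModLinearMap p (MonoidHom.toAdditiveLeft
    (QuotientGroup.lift _ (divHom p s) (by
      rintro _ ⟨c, rfl⟩
      change Multiplicative.ofAdd (divU p s (c ^ p)) = 1
      rw [← ofAdd_zero]
      congr 1
      ext v
      simp [divU_apply, ord_pow])))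

lemma divP_clsU (x : Kˣ) : divP p s (clsU p x) = divU p s x := rfl

lemma divP_cls {x : K} (hx : x ≠ 0) (v : {v : Pl K // v ∉ s}) :
    divP p s (cls p x) v = ((ord v.1 x : ℤ) : ZMod p) := by
  rw [cls_of_ne_zero hx, divP_clsU, divU_apply]
  rfl

/-- `B_S(K)`: classes of `x` with `p ∣ ord_v x` for all `v ∉ s` -/
noncomputable def BS : Submodule (ZMod p) (ModP p K) := LinearMap.ker (divP p s)

lemma cls_mem_BS_iff {x : K} (hx : x ≠ 0) :
    cls p x ∈ BS p s ↔ ∀ v, v ∉ s → (p : ℤ) ∣ ord v x := by
  unfold BS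
  rw [LinearMap.mem_ker]
  constructor
  · intro h v hv
    have := DFunLike.congr_fun h ⟨v, hv⟩
    rw [divP_cls p s hx] at this
    exact (ZMod.intCast_zmod_eq_zero_iff_dvd _ _).1 this
  · intro h
    ext v
    rw [divP_cls p s hx]
    exact (ZMod.intCast_zmod_eq_zero_iff_dvd _ _).2 (h v.1 v.2)

/-- `Cl_S(K) / p` -/
abbrev ClP : Type _ := DivP p s ⧸ LinearMap.range (divP p s)

/-- `dim Cl_S(K) / p` -/
noncomputable def clRank : ℕ := finrank (ZMod p) (ClP p s)

/-- the divisors supported on `T` -/
noncomputable abbrev supT (T : Finset (Pl K)) : Submodule (ZMod p) (DivP p s) :=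
  Finsupp.supported (ZMod p) (ZMod p) {v : {v : Pl K // v ∉ s} | v.1 ∈ T}

variable {p s}

lemma finrank_supT {T : Finset (Pl K)} (hsT : s ⊆ T) :
    FiniteDimensional (ZMod p) (supT p s T) ∧ finrank (ZMod p) (supT p s T) + s.card = T.card := by
  classical
  have hfin : Finite {v : {v : Pl K // v ∉ s} | v.1 ∈ T} := by
    apply Set.Finite.to_subtype
    exact (T.finite_toSet.preimage (Subtype.val_injective.injOn))
  have := Fintype.ofFinite {v : {v : Pl K // v ∉ s} | v.1 ∈ T}
  let e := Finsupp.supportedEquivFinsupp (M := ZMod p) (R := ZMod p)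
    {v : {v : Pl K // v ∉ s} | v.1 ∈ T}
  have h1 : FiniteDimensional (ZMod p) (supT p s T) := Module.Finite.equiv e.symm
  refine ⟨h1, ?_⟩
  rw [e.finrank_eq, Module.finrank_finsupp_self]
  have h2 : Fintype.card {v : {v : Pl K // v ∉ s} | v.1 ∈ T} = (T \ s).card := by
    rw [← Fintype.card_coe]
    refine Fintype.card_congr ⟨fun v => ⟨v.1.1, Finset.mem_sdiff.2 ⟨v.2, v.1.2⟩⟩,
      fun v => ⟨⟨v.1, (Finset.mem_sdiff.1 v.2).2⟩, (Finset.mem_sdiff.1 v.2).1⟩,
      fun v => rfl, fun v => rfl⟩
  rw [h2, Finset.card_sdiff_add_card_eq_card hsT]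

lemma divP_mem_supT_iff {T : Finset (Pl K)} (hsT : s ⊆ T) (hT : GenCl T) (a : ModP p K) :
    divP p s a ∈ supT p s T ↔ a ∈ SU.space p T := by
  classical
  obtain ⟨x, hx0, rfl⟩ := cls_surjective a
  rw [Finsupp.mem_supported']
  constructor
  · intro h
    have hdvd : ∀ v, v ∉ T → (p : ℤ) ∣ ord v x := by
      intro v hv
      have := h ⟨v, fun hvs => hv (hsT hvs)⟩ hv
      rw [divP_cls p s hx0] at this
      exact (ZMod.intCast_zmod_eq_zero_iff_dvd _ _).1 this
    obtain ⟨γ, hγ0, h1, h2⟩ := hT.exists_ord_eq (finite_support_ord hx0).toFinset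
      (fun v => ord v x / p)
    rw [SU.mem_space_iff]
    refine ⟨x / γ ^ p, ⟨div_ne_zero hx0 (pow_ne_zero _ hγ0), ?_⟩, ?_⟩
    · intro v hv
      rw [ord_div v hx0 (pow_ne_zero _ hγ0), ord_pow]
      by_cases hvs : v ∈ (finite_support_ord hx0).toFinset
      · rw [h1 v hvs hv, Int.mul_ediv_cancel' (hdvd v hv), sub_self]
      · rw [h2 v hv hvs]
        have : ord v x = 0 := by
          by_contra hne
          exact hvs ((Set.Finite.mem_toFinset _).2 hne)
        rw [this]; ring
    · rw [div_eq_mul_inv, cls_mul hx0 (inv_ne_zero (pow_ne_zero _ hγ0)), cls_inv, cls_pow,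
        ZMod.natCast_self, zero_smul]
      exact (add_neg_eq_iff_eq_add (G := ModP p K)).2 (add_zero (M := ModP p K) _).symm
  · intro h v hv
    obtain ⟨y, ⟨hy0, hy⟩, hxy⟩ := SU.mem_space_iff.1 h
    rw [← hxy, divP_cls p s hy0, hy v.1 hv]
    simp

lemma supT_sup_range {T : Finset (Pl K)} (hT : GenCl T) :
    supT p s T ⊔ LinearMap.range (divP p s) = ⊤ := by
  classical
  rw [eq_top_iff]
  intro D hD
  clear hD
  induction D using Finsupp.induction_linear with
  | zero => exact Submodule.zero_mem _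
  | add f g hf hg => exact Submodule.add_mem _ hf hg
  | single v a =>
    by_cases hv : v.1 ∈ T
    · apply Submodule.mem_sup_left
      rw [Finsupp.mem_supported']
      intro w hw
      rw [Finsupp.single_apply, if_neg]
      rintro rfl
      exact hw hv
    · obtain ⟨γ, hγ0, h1, h2⟩ := hT v.1 hv
      have key : Finsupp.single v (1 : ZMod p) - divP p s (cls p γ) ∈ supT p s T := by
        rw [Finsupp.mem_supported']
        intro w hw
        rw [Finsupp.sub_apply, divP_cls p s hγ0, Finsupp.single_apply]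
        by_cases hwv : v = w
        · subst hwv
          rw [if_pos rfl, h1]; simp
        · rw [if_neg hwv, h2 w.1 hw (fun h => hwv (Subtype.ext h.symm))]; simp
      have h3 : Finsupp.single v a = a • (Finsupp.single v (1 : ZMod p) - divP p s (cls p γ))
          + divP p s (a • cls p γ) := by
        rw [map_smul, smul_sub, sub_add_cancel, Finsupp.smul_single, smul_eq_mul, mul_one]
      rw [h3]
      exact Submodule.add_mem _ (Submodule.mem_sup_left (Submodule.smul_mem _ _ key))
        (Submodule.mem_sup_right ⟨_, rfl⟩)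

/-- **GK4**: `B_S(K)` and `Cl_S(K)/p` are finite and
`dim B_S(K) = rank 𝓞ˣ + 1 + #S + dim Cl_S(K)/p`. -/
theorem finrank_BS {ζ : K} (hζ : IsPrimitiveRoot ζ p) (s : Finset (Pl K)) :
    FiniteDimensional (ZMod p) (BS p s) ∧ FiniteDimensional (ZMod p) (ClP p s) ∧
      finrank (ZMod p) (BS p s) = Units.rank K + 1 + s.card + clRank p s := by
  classical
  obtain ⟨T, hsT, -, hT, -⟩ := exists_genCl s ∅ (by simp)
  obtain ⟨f1, f2⟩ := finrank_supT (p := p) hsT
  have := SU.finite_space hζ T
  have f3 : FiniteDimensional (ZMod p) (SU.space p T) := Module.Finite.of_finite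
  obtain ⟨g1, g2, g3⟩ := finrank_ker_eq_of_core (divP p s) (SU.space p T) (supT p s T)
    (divP_mem_supT_iff hsT hT) (supT_sup_range hT)
  refine ⟨g1, g2, ?_⟩
  rw [SU.finrank_space hζ T] at g3
  have g4 : finrank (ZMod p) (ClP p s) = finrank (ZMod p) (DivP p s ⧸ LinearMap.range (divP p s)) :=
    rfl
  unfold clRank BS
  omega

end BS

theorem two_mul_rank_add_one {K : Type*} [Field K] [NumberField K] {p : ℕ} (hp : 2 < p) {ζ : K}
    (hζ : IsPrimitiveRoot ζ p) : 2 * (Units.rank K + 1) = finrank ℚ K := by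
  have h0 : InfinitePlace.nrRealPlaces K = 0 :=
    NumberField.InfinitePlace.IsPrimitiveRoot.nrRealPlaces_eq_zero_of_two_lt hp hζ
  have h1 := InfinitePlace.card_add_two_mul_card_eq_rank K
  have h2 : Units.rank K = Fintype.card (InfinitePlace K) - 1 := rfl
  have h3 := InfinitePlace.card_eq_nrRealPlaces_add_nrComplexPlaces K
  have h4 : 0 < Fintype.card (InfinitePlace K) := Fintype.card_pos
  omega

end Fermat.Agent.CFT.Global
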