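import Fermat.Agent.CFT.K.Bridge
import Fermat.Agent.CFT.Br.Kummer
import Fermat.Agent.Common.PlaceBridgeKummer
import Fermat.Agent.CFT.Global.H1.BS

set_option autoImplicit false
set_option linter.unusedSectionVars false

/-!
# CFT / Global / H1 : `H^1(G_{K,S}, 𝔽_p) ≃ B_S(K)` and the global `H^1` count  (GC1 + GK4)

`K` an abstract number field (not nec. Galois), `φ : K →+* Qb`, `imageField φ` unramified outside `S ∋ p`,
`ζ_p ∈ K`, `W = fixer φ`.
* `aboveS K S : Finset (Pl K)` : the places of `K` above `S`;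
* `valuation_eq_zpow_ord` : `w_A(φ x) = w_A(q) ^ ord_v x` for `A | v | q ∉ S`;
* `isGalAct_levAll W` : `IsGalAct Qb (levAll.comap W.subtype)` for ANY subgroup `W ≤ GQ`;
* `exists_addEquiv_of_rel` : an additive relation that is total, onto and injective both ways is
  the graph of an isomorphism;
* `H1_equiv_BS`, `finrank_H1` : `2 h^1 = 2 #S(K) + [K:ℚ] + 2 clRank`.
-/

namespace Fermat.Agent.CFT.Global

open Fermat.Agent.S14 Fermat.Agent.Bridge Fermat.Agent.CFT.Br IsDedekindDomain NumberField Module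

/-- an additive relation which is total, onto, and injective both ways is an isomorphism -/
theorem exists_addEquiv_of_rel {V W : Type*} [AddCommGroup V] [AddCommGroup W]
    (R : V → W → Prop) (hadd : ∀ v v' w w', R v w → R v' w' → R (v + v') (w + w'))
    (hneg : ∀ v w, R v w → R (-v) (-w))
    (htot : ∀ v, ∃ w, R v w) (hsurj : ∀ w, ∃ v, R v w) (hinj : ∀ v, R v 0 → v = 0)
    (hfun : ∀ w, R 0 w → w = 0) : ∃ e : V ≃+ W, ∀ v, R v (e v) := by
  choose f hf using htot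
  have huniq : ∀ v w, R v w → w = f v := by
    intro v w h
    have h1 := hadd _ _ _ _ h (hneg _ _ (hf v))
    rw [add_neg_cancel] at h1
    have := hfun _ h1
    exact eq_of_sub_eq_zero (by rwa [sub_eq_add_neg])
  have hfadd : ∀ v v', f (v + v') = f v + f v' := fun v v' =>
    (huniq _ _ (hadd _ _ _ _ (hf v) (hf v'))).symm
  let F : V →+ W := AddMonoidHom.mk' f hfadd
  have hFinj : Function.Injective F := by
    rw [injective_iff_map_eq_zero]
    intro v hv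
    apply hinj
    have := hf v
    rwa [show f v = 0 from hv] at this
  have hFsurj : Function.Surjective F := by
    intro w
    obtain ⟨v, hv⟩ := hsurj w
    exact ⟨v, (huniq v w hv).symm⟩
  exact ⟨AddEquiv.ofBijective F ⟨hFinj, hFsurj⟩, hf⟩

/-- the subgroups of `GQ` act on `Qb` as Galois groups (all levels) -/
theorem isGalAct_levAll (W : Subgroup GQ) : IsGalAct Qb (levAll.comap W.subtype) where
  smooth x := by
    have : FiniteDimensional ℚ (IntermediateField.adjoin ℚ {x}) :=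
      IntermediateField.adjoin.finiteDimensional (Algebra.IsIntegral.isIntegral _)
    obtain ⟨U, hU, hle⟩ := exists_levAll_le (IntermediateField.adjoin ℚ {x})
    refine ⟨_, ⟨U, hU, rfl⟩, fun s hs => ?_⟩
    have h1 : (s : GQ) ∈ (IntermediateField.adjoin ℚ {x}).fixingSubgroup := hle hs
    exact (IntermediateField.mem_fixingSubgroup_iff _ _).1 h1 x
      (IntermediateField.mem_adjoin_simple_self ℚ x)
  faithful := by
    rintro _ ⟨_, ⟨F, hF, hN, rfl⟩, rfl⟩ g hg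
    show (g : GQ) ∈ F.fixingSubgroup
    rw [IntermediateField.mem_fixingSubgroup_iff]
    intro x hx
    exact hg x fun s hs => (IntermediateField.mem_fixingSubgroup_iff _ _).1 hs x hx

lemma chiRep_one {k : Type} [CommRing k] {G : Type} [Group G] :
    chiRep (1 : G →* kˣ) = (1 : Representation k G k) := by
  ext g
  simp [chiRep]

section Main

variable {K : Type} [Field K] [NumberField K] (φ : K →+* Qb)
  (S : Finset Nat.Primes) {p : ℕ} [Fact p.Prime]

lemma finite_aboveS (K : Type) [Field K] [NumberField K] (S : Finset Nat.Primes) :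
    {v : Pl K | ∃ q ∈ S, Above (q : ℕ) v}.Finite := by
  have : {v : Pl K | ∃ q ∈ S, Above (q : ℕ) v} = ⋃ q ∈ S, {v : Pl K | Above (q : ℕ) v} := by
    ext v; simp
  rw [this]
  exact S.finite_toSet.biUnion fun q _ => finite_above (q : ℕ) q.2.ne_zero

/-- the places of `K` above the primes of `S` -/
noncomputable def aboveS (K : Type) [Field K] [NumberField K] (S : Finset Nat.Primes) :
    Finset (Pl K) := (finite_aboveS K S).toFinset

lemma mem_aboveS {v : Pl K} : v ∈ aboveS K S ↔ ∃ q ∈ S, Above (q : ℕ) v := by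
  simp [aboveS]

variable {φ S}

/-- the `ord` dictionary for a field unramified outside `S` -/
lemma valuation_eq_zpow_ord (hur : (imageField φ).IsUnramifiedOutside S) {q : Nat.Primes}
    (hq : q ∉ S) {A : ValuationSubring Qb} (hA : A.LiesOverPrime (q : ℕ)) {v : Pl K}
    (hv : v.asIdeal = primeBelow φ A) {x : K} (hx : x ≠ 0) :
    A.valuation (φ x) = A.valuation ((q : ℕ) : Qb) ^ (ord v x) := by
  have h1 : A.valuation (φ x) ^ (ord v ((q : ℕ) : K)) = A.valuation ((q : ℕ) : Qb) ^ (ord v x) :=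
    valuation_zpow_eq (φ := φ) (A := A) q.2 hv hx
  have he : ord v ((q : ℕ) : K) = 1 := by
    obtain ⟨π, hπ⟩ := v.valuation_exists_uniformizer K
    have hπ0 : π ≠ 0 := by
      rw [← Valuation.ne_zero_iff (v.valuation K), hπ]; exact WithZero.exp_ne_zero
    have hord : ord v π = 1 := by
      rw [ord, hπ, WithZero.log_exp]; simp
    have h2 : A.valuation (φ π) ^ (ord v ((q : ℕ) : K)) = A.valuation ((q : ℕ) : Qb) ^ (ord v π) :=
      valuation_zpow_eq (φ := φ) (A := A) q.2 hv hπ0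
    obtain ⟨n, hn⟩ := exists_zpow_of_isUnramifiedOutside hur (x := φ π) ⟨π, rfl⟩
      (by simpa using hπ0) hq hA
    rw [hn, ← zpow_mul, hord] at h2
    have h3 : n * ord v ((q : ℕ) : K) = 1 := zpow_valuation_natCast_injective q.2 hA h2
    have h4 : 0 ≤ ord v ((q : ℕ) : K) := by
      have := ord_nonneg_of_integer v ((q : ℕ) : 𝓞 K)
      simpa using this
    rcases Int.eq_one_or_neg_one_of_mul_eq_one' h3 with h | h
    · exact h.2
    · omega
  rwa [he, zpow_one] at h1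

lemma not_mem_aboveS_of {q : Nat.Primes} (hq : q ∉ S) {A : ValuationSubring Qb}
    (hA : A.LiesOverPrime (q : ℕ)) {v : Pl K} (hv : v.asIdeal = primeBelow φ A) :
    v ∉ aboveS K S := by
  rw [mem_aboveS]
  rintro ⟨q', hq', h⟩
  have h1 : Above (q : ℕ) v := by
    unfold Above
    rw [hv]
    exact natCast_mem_primeBelow φ hA
  have := above_unique q'.2 q.2 h h1
  exact hq ((Subtype.ext this : q' = q) ▸ hq')

lemma exists_place_not_mem {v : Pl K} (hv : v ∉ aboveS K S) :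
    ∃ (q : Nat.Primes) (A : ValuationSubring Qb), q ∉ S ∧ A.LiesOverPrime (q : ℕ) ∧
      v.asIdeal = primeBelow φ A := by
  obtain ⟨ℓ, A, hℓ, hA, h⟩ := exists_place_of_heightOne φ v
  refine ⟨⟨ℓ, hℓ⟩, A, fun hS => hv ?_, hA, h⟩
  rw [mem_aboveS]
  refine ⟨⟨ℓ, hℓ⟩, hS, ?_⟩
  unfold Above
  rw [h]
  exact natCast_mem_primeBelow φ hA

/-! ### The Kummer relation -/

variable (φ) in
/-- the Kummer relation between cocycles on `fixer φ` and classes in `K^×/p` -/
def KRel (ζ' : Qbˣ) (f : ↥(fixer φ) → ZMod p) (a : ModP p K) : Prop :=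
  ∃ (b : Qbˣ) (x : K), x ≠ 0 ∧ φ x = (b : Qb) ^ p ∧ cls p x = a ∧
    ∀ g, muEmb ζ' (f g) = Additive.ofMul (uAct ↥(fixer φ) Qb g b / b)

lemma mem_fixU_iff {b : Qbˣ} : b ∈ fixU ↥(fixer φ) Qb ↔ ∃ x : K, φ x = (b : Qb) := by
  constructor
  · intro h
    apply exists_of_fixed φ
    intro σ hσ
    exact congrArg Units.val (h ⟨σ, hσ⟩)
  · rintro ⟨x, hx⟩ g
    apply Units.ext
    change (g : GQ) (b : Qb) = b
    rw [← hx]
    exact g.2 x

lemma Z1_levS_le {G : Type} [Group G] (r : G →* GQ) (ρ : Representation (ZMod p) G (ZMod p)) :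
    Z1 ((levS S).comap r) ρ ≤ Z1 (levAll.comap r) ρ := by
  rintro f ⟨h1, ⟨_, ⟨U, hU, rfl⟩, h2⟩⟩
  exact ⟨h1, ⟨_, ⟨U, levS_le_levAll S hU, rfl⟩, h2⟩⟩

variable {ζ' : Qbˣ}

lemma KRel.add (hζ : IsPrimitiveRoot ζ' p) {f f' : ↥(fixer φ) → ZMod p} {a a' : ModP p K}
    (h : KRel φ ζ' f a) (h' : KRel φ ζ' f' a') : KRel φ ζ' (f + f') (a + a') := by
  obtain ⟨b, x, hx0, hx, rfl, hf⟩ := h
  obtain ⟨b', x', hx0', hx', rfl, hf'⟩ := h'
  refine ⟨b * b', x * x', mul_ne_zero hx0 hx0', ?_, cls_mul hx0 hx0', fun g => ?_⟩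
  · rw [map_mul, hx, hx', Units.val_mul, mul_pow]
  · rw [Pi.add_apply, muEmb_add hζ, hf, hf', ← ofMul_mul, (uAct _ Qb g).map_mul, div_mul_div_comm]

lemma KRel.neg (hζ : IsPrimitiveRoot ζ' p) {f : ↥(fixer φ) → ZMod p} {a : ModP p K}
    (h : KRel φ ζ' f a) : KRel φ ζ' (-f) (-a) := by
  obtain ⟨b, x, hx0, hx, rfl, hf⟩ := h
  refine ⟨b⁻¹, x⁻¹, inv_ne_zero hx0, ?_, cls_inv x, fun g => ?_⟩
  · rw [map_inv₀, hx, Units.val_inv_eq_inv_val, inv_pow]
  · rw [Pi.neg_apply, muEmb_neg hζ, hf, ← ofMul_inv, (uAct _ Qb g).map_inv, inv_div_inv, inv_div]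

lemma KRel.left_eq_zero (hζ : IsPrimitiveRoot ζ' p) (hfix : ζ' ∈ fixU ↥(fixer φ) Qb)
    {f : ↥(fixer φ) → ZMod p} (h : KRel φ ζ' f 0) : f = 0 := by
  obtain ⟨b, x, hx0, hx, hcls, hf⟩ := h
  obtain ⟨c, hc⟩ := (cls_eq_zero_iff hx0).1 hcls
  have hc0 : c ≠ 0 := by
    rintro rfl
    rw [zero_pow (Fact.out : p.Prime).ne_zero] at hc
    exact hx0 hc.symm
  have hχ : ∀ g, uAct ↥(fixer φ) Qb g ζ' = ζ' ^ (((1 : ↥(fixer φ) →* (ZMod p)ˣ) g : (ZMod p)ˣ) : ZMod p).val := by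
    intro g
    have : (1 : ZMod p).val = 1 := ZMod.val_one p
    rw [MonoidHom.one_apply, Units.val_one, this, pow_one]
    exact hfix g
  have h1 : f ∈ B1 (chiRep (1 : ↥(fixer φ) →* (ZMod p)ˣ)) := by
    rw [kummer_B1_iff hζ hχ hf]
    refine ⟨Units.mk0 (φ c) (by simpa using hc0), mem_fixU_iff.2 ⟨c, rfl⟩, ?_⟩
    apply Units.ext
    rw [Units.val_pow_eq_pow_val, Units.val_pow_eq_pow_val, Units.val_mk0, ← map_pow, hc, hx]
  rw [chiRep_one] at h1
  obtain ⟨m, rfl⟩ := h1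
  funext g
  simp

lemma KRel.right_eq_zero (hζ : IsPrimitiveRoot ζ' p) {a : ModP p K}
    (h : KRel φ ζ' (0 : ↥(fixer φ) → ZMod p) a) : a = 0 := by
  obtain ⟨b, x, hx0, hx, rfl, hf⟩ := h
  have hb : b ∈ fixU ↥(fixer φ) Qb := by
    intro g
    have h1 := hf g
    rw [Pi.zero_apply, muEmb_zero hζ] at h1
    have h2 : uAct ↥(fixer φ) Qb g b / b = 1 := (ofMul_eq_zero.1 h1.symm)
    exact div_eq_one.1 h2
  obtain ⟨c, hc⟩ := mem_fixU_iff.1 hb
  rw [cls_eq_zero_iff hx0]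
  refine ⟨c, φ.injective ?_⟩
  rw [map_pow, hc, hx]

lemma chi_one_spec (hfix : ζ' ∈ fixU ↥(fixer φ) Qb) (g : ↥(fixer φ)) :
    uAct ↥(fixer φ) Qb g ζ' =
      ζ' ^ (((1 : ↥(fixer φ) →* (ZMod p)ˣ) g : (ZMod p)ˣ) : ZMod p).val := by
  have : (1 : ZMod p).val = 1 := ZMod.val_one p
  rw [MonoidHom.one_apply, Units.val_one, this, pow_one]
  exact hfix g

lemma uAct_one_apply {G : Type} [Group G] {Ω : Type} [Field Ω] [MulSemiringAction G Ω] (b : Ωˣ) :
    uAct G Ω 1 b = b := Units.ext (one_smul G (b : Ω))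

lemma KRel.exists_right (hur : (imageField φ).IsUnramifiedOutside S)
    (hζ : IsPrimitiveRoot ζ' p) (hfix : ζ' ∈ fixU ↥(fixer φ) Qb) {f : ↥(fixer φ) → ZMod p}
    (hf : f ∈ Z1 ((levS S).comap (fixer φ).subtype)
      (1 : Representation (ZMod p) ↥(fixer φ) (ZMod p))) :
    ∃ a ∈ BS p (aboveS K S), KRel φ ζ' f a := by
  have hf' := Z1_levS_le _ _ hf
  rw [← chiRep_one] at hf'
  obtain ⟨b, hb, hfb⟩ := kummer_Z1 (isGalAct_levAll _) hζ (chi_one_spec hfix) hf'
  obtain ⟨x, hx⟩ := mem_fixU_iff.1 hb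
  rw [Units.val_pow_eq_pow_val] at hx
  have hx0 : x ≠ 0 := by
    rintro rfl
    rw [map_zero] at hx
    exact pow_ne_zero p b.ne_zero hx.symm
  refine ⟨cls p x, ?_, b, x, hx0, hx, rfl, hfb⟩
  obtain ⟨_, ⟨_, ⟨F, hF, hN, rfl⟩, rfl⟩, hlc⟩ := hf.2
  have hF' : (F ⊔ imageField φ).IsUnramifiedOutside S := hF.sup hur
  have hbF : (b : Qb) ∈ F ⊔ imageField φ := by
    have := isGalois_Qb
    rw [← InfiniteGalois.fixedField_fixingSubgroup (F ⊔ imageField φ),
      IntermediateField.mem_fixedField_iff]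
    intro σ hσ
    rw [IntermediateField.fixingSubgroup_sup, ← fixer_eq] at hσ
    have h1 := hfb ⟨σ, hσ.2⟩
    have h2 := hlc 1 ⟨σ, hσ.2⟩ hσ.1
    rw [one_mul] at h2
    rw [h2, hfb 1, uAct_one_apply, div_self'] at h1
    have h3 : uAct ↥(fixer φ) Qb ⟨σ, hσ.2⟩ b / b = 1 := (Additive.ofMul.injective h1).symm
    exact congrArg Units.val (div_eq_one.1 h3)
  rw [cls_mem_BS_iff p _ hx0]
  intro v hv
  obtain ⟨q, A, hq, hA, hvA⟩ := exists_place_not_mem (φ := φ) hv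
  obtain ⟨n, hn⟩ := exists_zpow_of_isUnramifiedOutside hF' hbF b.ne_zero hq hA
  have h1 := valuation_eq_zpow_ord hur hq hA hvA hx0
  rw [hx, map_pow, hn, ← zpow_natCast, ← zpow_mul] at h1
  have h2 := zpow_valuation_natCast_injective q.2 hA h1
  exact ⟨n, by rw [← h2, mul_comm]⟩

lemma KRel.exists_left (hur : (imageField φ).IsUnramifiedOutside S)
    (hpS : ∀ q : Nat.Primes, q ∉ S → Nat.Coprime (q : ℕ) p)
    (hζ : IsPrimitiveRoot ζ' p) (hfix : ζ' ∈ fixU ↥(fixer φ) Qb) {a : ModP p K}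
    (ha : a ∈ BS p (aboveS K S)) :
    ∃ f ∈ Z1 ((levS S).comap (fixer φ).subtype)
      (1 : Representation (ZMod p) ↥(fixer φ) (ZMod p)), KRel φ ζ' f a := by
  obtain ⟨x, hx0, rfl⟩ := cls_surjective a
  obtain ⟨b0, hb0⟩ := IsAlgClosed.exists_pow_nat_eq (φ x) (Fact.out : p.Prime).pos
  have hb00 : b0 ≠ 0 := by
    rintro rfl
    rw [zero_pow (Fact.out : p.Prime).ne_zero] at hb0
    exact hx0 (φ.injective (by rw [← hb0, map_zero]))
  have hb : (Units.mk0 b0 hb00) ^ p ∈ fixU ↥(fixer φ) Qb :=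
    mem_fixU_iff.2 ⟨x, by rw [Units.val_pow_eq_pow_val, Units.val_mk0, hb0]⟩
  obtain ⟨f, hf, hfb⟩ := kummer_Z1_exists (χ := 1) (isGalAct_levAll _) hζ (chi_one_spec hfix) hb
  rw [chiRep_one] at hf
  refine ⟨f, ⟨hf.1, ?_⟩, Units.mk0 b0 hb00, x, hx0, hb0.symm, rfl, hfb⟩
  have hF' : (imageField φ ⊔ IntermediateField.adjoin ℚ {b0}).IsUnramifiedOutside S := by
    refine isUnramifiedOutside_sup_adjoin_root hur hpS (x := φ x) ⟨x, rfl⟩ hb0 ?_
    intro q hq A hA
    have hv : (placeBelow φ q.2 A hA).asIdeal = primeBelow φ A := rfl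
    obtain ⟨n, hn⟩ := (cls_mem_BS_iff p _ hx0).1 ha _ (not_mem_aboveS_of hq hA hv)
    exact ⟨n, by rw [valuation_eq_zpow_ord hur hq hA hv hx0, hn]⟩
  obtain ⟨U, hU, hle⟩ := exists_levS_le hF'
  refine ⟨_, ⟨U, hU, rfl⟩, fun g s hs => ?_⟩
  have hs' : (s : GQ) ∈ (imageField φ ⊔ IntermediateField.adjoin ℚ {b0}).fixingSubgroup := hle hs
  have hsb : (s : GQ) b0 = b0 :=
    (IntermediateField.mem_fixingSubgroup_iff _ _).1 hs' b0
      (le_sup_right (a := imageField φ) (IntermediateField.mem_adjoin_simple_self ℚ b0))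
  have hfs : f s = 0 := by
    apply muEmb_injective hζ
    rw [hfb s, muEmb_zero hζ]
    have : uAct ↥(fixer φ) Qb s (Units.mk0 b0 hb00) = Units.mk0 b0 hb00 := Units.ext hsb
    rw [this, div_self', ofMul_one]
  have hc := congrFun (LinearMap.mem_ker.1 hf.1) (g, s)
  rw [d12_apply, hfs, map_zero] at hc
  have h3 : (0 : ZMod p) - f (g * s) + f g = 0 := hc
  linear_combination -h3

lemma B1_one_eq_bot {G : Type} [Group G] {k : Type} [CommRing k] :
    B1 (1 : Representation k G k) = ⊥ := by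
  rw [eq_bot_iff]
  rintro _ ⟨m, rfl⟩
  rw [Submodule.mem_bot]
  funext g
  simp

/-- **GC1**: `H^1(G_{K,S}, 𝔽_p) ≃ B_S(K)` (Kummer theory; `ζ_p ∈ K`, `K/ℚ` unramified
outside `S ∋ p`). -/
theorem H1_equiv_BS (hur : (imageField φ).IsUnramifiedOutside S)
    (hpS : ∀ q : Nat.Primes, q ∉ S → Nat.Coprime (q : ℕ) p) {ζ : K} (hζ : IsPrimitiveRoot ζ p)
    (W : Subgroup GQ) (hW : W = fixer φ) :
    Nonempty (H1 ((levS S).comap W.subtype) (1 : Representation (ZMod p) ↥W (ZMod p))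
      ≃ₗ[ZMod p] BS p (aboveS K S)) := by
  subst hW
  have hζ0 : φ ζ ≠ 0 := by
    have := hζ.ne_zero (Fact.out : p.Prime).ne_zero
    simpa using this
  have hζ' : IsPrimitiveRoot (Units.mk0 (φ ζ) hζ0) p :=
    IsPrimitiveRoot.coe_units_iff.1 (hζ.map_of_injective φ.injective)
  have hfix : Units.mk0 (φ ζ) hζ0 ∈ fixU ↥(fixer φ) Qb := mem_fixU_iff.2 ⟨ζ, rfl⟩
  obtain ⟨e, -⟩ := exists_addEquiv_of_rel
    (fun (f : ↥(Z1 ((levS S).comap (fixer φ).subtype)
      (1 : Representation (ZMod p) ↥(fixer φ) (ZMod p)))) (a : ↥(BS p (aboveS K S))) =>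
      KRel φ (Units.mk0 (φ ζ) hζ0) f.1 a.1)
    (fun _ _ _ _ h h' => KRel.add hζ' h h') (fun _ _ h => KRel.neg hζ' h)
    (fun f => by
      obtain ⟨a, ha, h⟩ := KRel.exists_right hur hζ' hfix f.2
      exact ⟨⟨a, ha⟩, h⟩)
    (fun a => by
      obtain ⟨f, hf, h⟩ := KRel.exists_left hur hpS hζ' hfix a.2
      exact ⟨⟨f, hf⟩, h⟩)
    (fun f h => Subtype.ext (KRel.left_eq_zero hζ' hfix h))
    (fun a h => Subtype.ext (KRel.right_eq_zero hζ' h))
  have hbot : (B1 (1 : Representation (ZMod p) ↥(fixer φ) (ZMod p))).submoduleOf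
      (Z1 ((levS S).comap (fixer φ).subtype) 1) = ⊥ := by
    rw [B1_one_eq_bot]
    exact Submodule.comap_bot _ |>.trans (Submodule.ker_subtype _)
  exact ⟨(Submodule.quotEquivOfEqBot _ hbot).trans
    (LinearEquiv.ofBijective (e.toAddMonoidHom.toZModLinearMap p) e.bijective)⟩

/-- **GC1 + GK4**: the global `H^1` count. -/
theorem finrank_H1 (hp2 : 2 < p) (hur : (imageField φ).IsUnramifiedOutside S)
    (hpS : ∀ q : Nat.Primes, q ∉ S → Nat.Coprime (q : ℕ) p) {ζ : K} (hζ : IsPrimitiveRoot ζ p)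
    (W : Subgroup GQ) (hW : W = fixer φ) :
    Module.Finite (ZMod p)
        (H1 ((levS S).comap W.subtype) (1 : Representation (ZMod p) ↥W (ZMod p))) ∧
      2 * finrank (ZMod p)
        (H1 ((levS S).comap W.subtype) (1 : Representation (ZMod p) ↥W (ZMod p))) =
      2 * (aboveS K S).card + finrank ℚ K + 2 * clRank p (aboveS K S) := by
  obtain ⟨e⟩ := H1_equiv_BS hur hpS hζ W hW
  obtain ⟨h1, -, h3⟩ := finrank_BS hζ (aboveS K S)
  refine ⟨Module.Finite.equiv e.symm, ?_⟩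
  rw [e.finrank_eq, h3, ← two_mul_rank_add_one hp2 hζ]
  ring

end Main

end Fermat.Agent.CFT.Global
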